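import Fermat.Agent.S36.Norm.Tools.NormEv
import Fermat.Agent.S19.Weil.FinDim
import Fermat.Agent.GAL.FF.IsFFGeneral
import Fermat.Agent.GAL.FF.Corollaries

/-!
# S36/E/Cover : general lemmas on extensions of function fields

* `isFF_sub` : a subfield of a function field which contains a non constant function is a function field;
* `degree_poleDiv_algebraMap` : `deg (f)_∞` is multiplied by the degree in a `GoodExt`.
-/

set_option autoImplicit false

noncomputable section

namespace Fermat.Agent.S36.E

open AlgebraicCurve Fermat.Agent.Lib.RR Fermat.Agent.GAL Fermat.Agent.GAL.RED Fermat.Agent.DR.Abs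
  Fermat.Agent.S36.Norm IntermediateField

section general

variable {k L1 L : Type*} [Field k] [IsAlgClosed k] [Field L1] [Field L] [Algebra k L1] [Algebra k L]
  [Algebra L1 L] [IsScalarTower k L1 L]

/-- **(C1)**
PROOF. As `S19.Weil.finiteDimensional_adjoin`: `Module.rank k⟮u⟯ L1 ≤ (deg (algebraMap u)_∞).toNat` by `rank_le`.  A finite family `z : Fin n → L1` which is linearly independent over
`k⟮u⟯` is `PolyIndep k u z` (copy the proof of `S19.Weil.polyIndep_of_linearIndependent`, which does not use `IsFF`), so `algebraMap ∘ z` is `PolyIndep k (algebraMap u)`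
(`algebraMap L1 L` is injective and commutes with `Polynomial.aeval`: `Polynomial.aeval_algebraMap_apply`, `map_sum`, `map_mul`), and `card_le_degree_poleDiv` in `L`. -/
theorem finiteDimensional_adjoin_sub [IsFF k L] (u : L1) (hu : Transcendental k u) :
    FiniteDimensional k⟮u⟯ L1 := by
  have hle : Module.rank k⟮u⟯ L1 ≤
      ((Divisor.degree (poleDiv (K := k) (algebraMap L1 L u))).toNat : ℕ) := by
    apply rank_le
    intro s hs
    have hz : LinearIndependent k⟮u⟯ (fun j : Fin s.card => ((s.equivFin.symm j : s) : L1)) :=
      hs.comp _ s.equivFin.symm.injective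
    have hP : PolyIndep k (algebraMap L1 L u)
        (fun j : Fin s.card => algebraMap L1 L ((s.equivFin.symm j : s) : L1)) := by
      intro p hp
      have hp' : ∑ i, Polynomial.aeval u (p i) * ((s.equivFin.symm i : s) : L1) = 0 := by
        apply (algebraMap L1 L).injective
        rw [map_sum, map_zero, ← hp]
        refine Finset.sum_congr rfl fun i _ => ?_
        rw [map_mul, Polynomial.aeval_algebraMap_apply]
      have hmem : ∀ i, Polynomial.aeval u (p i) ∈ k⟮u⟯ := by
        intro i
        rw [IntermediateField.mem_adjoin_simple_iff]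
        exact ⟨p i, 1, by simp⟩
      have h0 : ∑ i, (⟨Polynomial.aeval u (p i), hmem i⟩ : k⟮u⟯) •
          ((s.equivFin.symm i : s) : L1) = 0 := by
        rw [← hp']
        rfl
      have h1 := Fintype.linearIndependent_iff.1 hz _ h0
      funext i
      have h2 : Polynomial.aeval u (p i) = 0 := congrArg Subtype.val (h1 i)
      exact (transcendental_iff.1 hu) (p i) h2
    have h1 := card_le_degree_poleDiv (algebraMap L1 L u) _ hP
    omega
  exact Module.rank_lt_aleph0_iff.1 (lt_of_le_of_lt hle (Cardinal.natCast_lt_aleph0))

/-- **(C2)** (`S19.Weil.transcendental_of_not_mem_range` for `algebraMap u`; then `u` is transcendental (`Transcendental`/`IsAlgebraic.algebraMap`, `transcendental_algebraMap_iff`);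
`finiteDimensional_adjoin_sub`; `GAL.FF.isFF_of_finiteDimensional`.) -/
theorem isFF_sub [IsFF k L] (u : L1) (hu : algebraMap L1 L u ∉ Set.range (algebraMap k L)) :
    IsFF k L1 := by
  have h1 : Transcendental k (algebraMap L1 L u) := S19.Weil.transcendental_of_not_mem_range hu
  have h2 : Transcendental k u := by
    intro halg
    exact h1 (halg.algebraMap)
  have := finiteDimensional_adjoin_sub (L := L) u h2
  exact GAL.FF.isFF_of_finiteDimensional u h2

/-- **(C4)**
PROOF. `poleDiv (algebraMap f) = Divisor.pullback L (poleDiv f)`: `ext w`, `Divisor.pullback_apply`, `poleDiv_apply` twice, `Place.ord_restrict`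
(`w.ord (algebraMap f) = e * (w.restrict L1).ord f`), `e ≥ 0`: `max (-(e * n)) 0 = e * max (-n) 0` (`mul_max_of_nonneg`).
`Divisor.degree_pullback` needs `FundamentalIdentity k L1 L`: `h.sum v` and `GAL.FF.deg_eq_one_of_isAlgClosed` (all the degrees are `1`). -/
theorem degree_poleDiv_algebraMap [IsFF k L1] [IsFF k L] [FiniteDimensional L1 L]
    (h : GoodExt k L1 L) (f : L1) :
    Divisor.degree (poleDiv (K := k) (algebraMap L1 L f)) =
      (Module.finrank L1 L : ℤ) * Divisor.degree (poleDiv (K := k) f) := by
  have hFI : FundamentalIdentity k L1 L := by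
    constructor
    intro v
    rw [FF.Cor.deg_eq_one_of_isAlgClosed v, ← h.sum v]
    push_cast
    rw [mul_one]
    exact Finset.sum_congr rfl fun w _ => by rw [FF.Cor.deg_eq_one_of_isAlgClosed w]; simp
  have hpb : poleDiv (K := k) (algebraMap L1 L f) = Divisor.pullback L (poleDiv (K := k) f) := by
    ext w
    rw [Divisor.pullback_apply, poleDiv_apply, poleDiv_apply, Place.ord_restrict,
      mul_max_of_nonneg _ _ (Int.natCast_nonneg _), mul_zero, mul_neg]
  rw [hpb, Divisor.degree_pullback]

end general

end Fermat.Agent.S36.E
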