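import Fermat.Agent.S36.E.Cover.Restrict
import Fermat.Agent.S36.Norm.Tools.Branch
import Fermat.Agent.S36.Norm.Eta
import Fermat.Agent.S36.E.Cover.DegGen

/-!
# S36/E/Cover : the residue degrees add up (no geometric input)

* `isFF_Fb1` : the components downstairs are function fields;
* `finite_res`, `sum_finrank_res_le` : the fundamental inequality for the components above `a`;
* `sum_finrank_res_eq` : **equality**, from `deg (x)_∞ = ∑ deg (x̄ᵢ)_∞` upstairs;
* `coverAlong_restrict` : `CoverAlong φ (sOf V φ) (T1 V φ) (ofVal V)`.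
-/

set_option autoImplicit false

noncomputable section

namespace Fermat.Agent.S36.E

open AlgebraicCurve Fermat.Agent.Lib.RR Fermat.Agent.GAL Fermat.Agent.GAL.RED Fermat.Agent.DR.Abs
  Fermat.Agent.S36.Val Fermat.Agent.S36.Norm Fermat.Agent.S36.Abs IntermediateField

variable {K : Type} [Field K] {A : ValuationSubring K} {F F1 : Type} [Field F] [Algebra K F]
  [Field F1] [Algebra K F1] {ι : Type} [Fintype ι] (V : ι → ValOver A F) (φ : F1 →ₐ[K] F)

/-- **(C3)** the components downstairs are function fields.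
(`a = pr V φ i`; `isFF_sub` with `L = (V i).Res`, `u = (V1 V φ a).redData.red x1`, `algebraMap_red1 V φ _ ⟨i, rfl⟩ x1`.) -/
theorem isFF_Fb1 [IsAlgClosed (IsLocalRing.ResidueField ↥A)] [∀ i, IsFF (IsLocalRing.ResidueField ↥A) (V i).Res] (x1 : F1)
    (hx : ∀ i, (V i).redData.red (φ x1) ∉ Set.range (algebraMap (IsLocalRing.ResidueField ↥A) (V i).Res)) (a : Idx1 V φ) :
    IsFF (IsLocalRing.ResidueField ↥A) (Fb1 V φ a) := by
  obtain ⟨i, rfl⟩ := pr_surjective V φ a
  refine isFF_sub (k := IsLocalRing.ResidueField ↥A) (L1 := Fb1 V φ (pr V φ i))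
    (L := (V (sOf V φ (pr V φ i) ⟨i, rfl⟩)).Res) ((V1 V φ (pr V φ i)).redData.red x1) ?_
  rw [algebraMap_red1 V φ _ ⟨i, rfl⟩ x1]
  exact hx _

theorem over_mem (a : Idx1 V φ) (j : J1 V φ a) (y : F1) (hy : y ∈ ((T1 V φ).R a).O) :
    φ y ∈ (((ofVal V).comp (sOf V φ a)).R j).O := (mem_V1_iff V φ a j y).1 hy

theorem over_red (a : Idx1 V φ) (j : J1 V φ a) (y : F1) :
    (((ofVal V).comp (sOf V φ a)).R j).red (φ y) =
      algebraMap (Fb1 V φ a) (V (sOf V φ a j)).Res (((T1 V φ).R a).red y) :=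
  (algebraMap_red1 V φ a j y).symm

theorem Degree_sep_comp {K F k : Type*} [Field K] [Field F] [Algebra K F] [Field k] {ι : Type*}
    {Fb : ι → Type*} [∀ i, Field (Fb i)] [∀ i, Algebra k (Fb i)] {T : MultiRed K F k Fb}
    (hsep : T.Sep) {J' : Type*} (s' : J' → ι) (hs : Function.Injective s') :
    (T.comp s').Sep := by
  classical
  intro u c hc
  let u' : ∀ i, Fb i := fun i =>
    if h : ∃ j, s' j = i then h.choose_spec ▸ u h.choose else 0
  let c' : ι → K := fun i => if h : ∃ j, s' j = i then c h.choose else 1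
  have hcast : ∀ (j j' : J') (e : s' j' = s' j), (e ▸ u j' : Fb (s' j)) = u j := by
    intro j j' e
    obtain rfl := hs e
    rfl
  have hu' : ∀ j, u' (s' j) = u j := by
    intro j
    have h : ∃ j', s' j' = s' j := ⟨j, rfl⟩
    simp only [u', dif_pos h]
    exact hcast j _ _
  have hc' : ∀ j, c' (s' j) = c j := by
    intro j
    have h : ∃ j', s' j' = s' j := ⟨j, rfl⟩
    simp only [c', dif_pos h]
    rw [hs h.choose_spec]
  obtain ⟨h, hh⟩ := hsep u' c' (by
    intro i
    simp only [c']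
    split_ifs with h
    · exact hc _
    · exact one_ne_zero)
  refine ⟨h, fun j => ?_⟩
  have := hh (s' j)
  rw [hc', hu'] at this
  exact this

/-- **(C5)** (`letI := algebraAlong φ`, `isScalarTower_along φ`; `finite_of_sep (sep_comp hsep _ (sOf_injective V φ a))`, `over_mem`, `over_red`.) -/
theorem finite_res (hsep : (ofVal V).Sep) (hfin : FiniteAlong K φ) (a : Idx1 V φ)
    (j : J1 V φ a) : Module.Finite (Fb1 V φ a) (V (sOf V φ a j)).Res := by
  let _ := algebraAlong φ
  have := isScalarTower_along φ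
  have : Module.Finite F1 F := hfin
  exact finite_of_sep (R1 := (T1 V φ).R a) (T := (ofVal V).comp (sOf V φ a))
    (Degree_sep_comp hsep _ (sOf_injective V φ a)) (fun j y hy => over_mem V φ a j y hy)
    (fun j y _ => over_red V φ a j y) j

/-- **(C6)** (`sum_finrank_le`.) -/
theorem sum_finrank_res_le (hsep : (ofVal V).Sep) (hfin : FiniteAlong K φ) (a : Idx1 V φ) :
    ∑ j : J1 V φ a, Module.finrank (Fb1 V φ a) (V (sOf V φ a j)).Res ≤ finrankAlong K φ := by
  let _ := algebraAlong φ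
  have := isScalarTower_along φ
  have : Module.Finite F1 F := hfin
  exact sum_finrank_le (R1 := (T1 V φ).R a) (T := (ofVal V).comp (sOf V φ a))
    (Degree_sep_comp hsep _ (sOf_injective V φ a)) (fun j y hy => over_mem V φ a j y hy)
    (fun j y _ => over_red V φ a j y)

/-- reindexing: a sum over the components upstairs is a double sum.
(`Finset.sum_sigma'`/`Fintype.sum_sigma` and the equivalence `(Σ a, J1 V φ a) ≃ ι` = `Equiv.sigmaFiberEquiv (pr V φ)`; `Equiv.sum_comp`.) -/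
theorem sum_eq_sum_sum {M : Type*} [AddCommMonoid M] (g : ι → M) :
    ∑ i, g i = ∑ a : Idx1 V φ, ∑ j : J1 V φ a, g (sOf V φ a j) := by
  rw [← Equiv.sum_comp (Equiv.sigmaFiberEquiv (pr V φ)) g, Fintype.sum_sigma]
  rfl

/-- **(C7) The residue degrees add up.**
PROOF. `n := finrankAlong K φ`, `d a := deg (red1_a x1)_∞ > 0` (`degree_poleDiv_pos`; `red1_a x1` is not constant, otherwise `red_i (φ x1)` would be: `algebraMap_red1`,
`IsScalarTower.algebraMap_apply`), `f a j := finrank (Fb1 a) (V (sOf a j)).Res`.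
* `n * deg (x1)_∞ = deg (φ x1)_∞` (`degree_poleDiv_algebraMap hG0`, `letI := algebraAlong φ`);
* `deg (φ x1)_∞ = ∑ i, deg (red_i (φ x1))_∞ = ∑ a, ∑ j, f a j * d a` (`hdeg`, `sum_eq_sum_sum`, `algebraMap_red1`, `degree_poleDiv_algebraMap (hG a j)`);
* `∑ j, f a j ≤ n` (`sum_finrank_res_le`);
* `∑ a, d a ≤ deg (x1)_∞` (`MultiRed.sum_degree_poleDiv_red_le (T1 V φ) (T1_sep V φ hsc hr) x1`).
So `∑ a, (n - ∑ j, f a j) * d a ≤ 0`, all the terms are `≥ 0`, hence they vanish (`Finset.sum_eq_zero_iff_of_nonneg`), and `d a > 0`. -/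
theorem sum_finrank_res_eq [IsAlgClosed K] [IsFF K F] [IsFF K F1] [IsAlgClosed (IsLocalRing.ResidueField ↥A)]
    [∀ i, IsFF (IsLocalRing.ResidueField ↥A) (V i).Res] [∀ a, IsFF (IsLocalRing.ResidueField ↥A) (Fb1 V φ a)]
    [∀ a j, FiniteDimensional (Fb1 V φ a) (V (sOf V φ a j)).Res]
    (hsep : (ofVal V).Sep) (hsc : HasScales (ofVal V)) (hr : RankOne (ofVal V))
    (hfin : FiniteAlong K φ)
    (hG0 : ∀ f : F1, Divisor.degree (poleDiv (K := K) (φ f)) =
      (finrankAlong K φ : ℤ) * Divisor.degree (poleDiv (K := K) f))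
    (hG : ∀ a j, GoodExt (IsLocalRing.ResidueField ↥A) (Fb1 V φ a) (V (sOf V φ a j)).Res) (x1 : F1)
    (hx : ∀ i, (V i).redData.red (φ x1) ∉ Set.range (algebraMap (IsLocalRing.ResidueField ↥A) (V i).Res))
    (hdeg : Divisor.degree (poleDiv (K := K) (φ x1)) =
      ∑ i, Divisor.degree (poleDiv (K := (IsLocalRing.ResidueField ↥A)) ((V i).redData.red (φ x1)))) (a : Idx1 V φ) :
    ∑ j : J1 V φ a, Module.finrank (Fb1 V φ a) (V (sOf V φ a j)).Res = finrankAlong K φ := by
  have hnc : ∀ a, ((T1 V φ).R a).red x1 ∉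
      Set.range (algebraMap (IsLocalRing.ResidueField ↥A) (Fb1 V φ a)) := by
    intro a
    obtain ⟨i, rfl⟩ := pr_surjective V φ a
    rintro ⟨c, hc⟩
    apply hx i
    refine ⟨c, ?_⟩
    have h1 := algebraMap_red1 V φ (pr V φ i) ⟨i, rfl⟩ x1
    have h2 : (V1 V φ (pr V φ i)).redData.red x1 =
      algebraMap (IsLocalRing.ResidueField ↥A) (Fb1 V φ (pr V φ i)) c := hc.symm
    rw [h2, ← IsScalarTower.algebraMap_apply] at h1
    exact h1
  set d : Idx1 V φ → ℤ := fun a =>
    Divisor.degree (poleDiv (K := (IsLocalRing.ResidueField ↥A)) (((T1 V φ).R a).red x1)) with hd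
  have hdpos : ∀ a, 0 < d a := fun a => DR.Abs.degree_poleDiv_pos (hnc a)
  have h1 := hG0 x1
  have h2 : Divisor.degree (poleDiv (K := K) (φ x1)) =
      ∑ a : Idx1 V φ, (∑ j : J1 V φ a,
        (Module.finrank (Fb1 V φ a) (V (sOf V φ a j)).Res : ℤ)) * d a := by
    rw [hdeg, sum_eq_sum_sum V φ]
    refine Finset.sum_congr rfl fun a _ => ?_
    rw [Finset.sum_mul]
    refine Finset.sum_congr rfl fun j _ => ?_
    rw [← algebraMap_red1 V φ a j x1, degree_poleDiv_algebraMap (hG a j)]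
    rfl
  have h3 : ∀ a, (∑ j : J1 V φ a, (Module.finrank (Fb1 V φ a) (V (sOf V φ a j)).Res : ℤ))
      ≤ (finrankAlong K φ : ℤ) := by
    intro a
    exact_mod_cast sum_finrank_res_le V φ hsep hfin a
  have h4 : ∑ a, d a ≤ Divisor.degree (poleDiv (K := K) x1) :=
    MultiRed.sum_degree_poleDiv_red_le (T1 V φ) (T1_sep V φ hsc hr) x1 hnc
  have h5 : ∑ a : Idx1 V φ, ((finrankAlong K φ : ℤ) - ∑ j : J1 V φ a,
      (Module.finrank (Fb1 V φ a) (V (sOf V φ a j)).Res : ℤ)) * d a ≤ 0 := by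
    simp only [sub_mul]
    rw [Finset.sum_sub_distrib, ← h2, h1, ← Finset.mul_sum]
    have : (0 : ℤ) ≤ (finrankAlong K φ : ℤ) := Int.natCast_nonneg _
    nlinarith
  have h6 : ∀ a ∈ (Finset.univ : Finset (Idx1 V φ)), 0 ≤ ((finrankAlong K φ : ℤ) - ∑ j : J1 V φ a,
      (Module.finrank (Fb1 V φ a) (V (sOf V φ a j)).Res : ℤ)) * d a := fun a _ =>
    mul_nonneg (sub_nonneg.2 (h3 a)) (hdpos a).le
  have h7 := (Finset.sum_eq_zero_iff_of_nonneg h6).1 (le_antisymm h5 (Finset.sum_nonneg h6)) a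
    (Finset.mem_univ a)
  have h8 := (mul_eq_zero.1 h7).resolve_right (hdpos a).ne'
  have h9 : (∑ j : J1 V φ a, (Module.finrank (Fb1 V φ a) (V (sOf V φ a j)).Res : ℤ))
      = (finrankAlong K φ : ℤ) := (sub_eq_zero.1 h8).symm
  exact_mod_cast h9

/-- **(C8)** -/
theorem coverAlong_restrict (hsep : (ofVal V).Sep) (hfin : FiniteAlong K φ)
    (hsum : ∀ a : Idx1 V φ,
      ∑ j : J1 V φ a, Module.finrank (Fb1 V φ a) (V (sOf V φ a j)).Res = finrankAlong K φ) :
    letI := algebraAlong φ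
    Cover (sOf V φ) (T1 V φ) (ofVal V) := by
  let _ := algebraAlong φ
  exact
    { inj := sOf_injective V φ
      ov := fun a =>
        { mem := fun j y hy => over_mem V φ a j y hy
          red := fun j y _ => over_red V φ a j y
          fin := fun j => finite_res V φ hsep hfin a j
          sum := hsum a } }

end Fermat.Agent.S36.E
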