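import Fermat.Agent.S36.E.Cover.Degree

/-!
# S36/E/Cover : the nodes downstairs, defined by restriction

`N` the nodes upstairs (index `E`), `πE : E → E1`, `sec : E1 → E` a section of `πE`.
* `restrBr V φ i P` : the restriction of the branch `(i, P)` to the component `pr V φ i` downstairs;
* `N1 V φ N sec` : the nodes downstairs := the restrictions of the two branches of the nodes `sec e1`;
* `branchAbove_of_red` : criterion for `Norm.BranchAbove`, in terms of the reductions of the functions `φ y`;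
* `nodeCover_restrict`, `glued_restrict`.
-/

set_option autoImplicit false

noncomputable section

namespace Fermat.Agent.S36.E

open AlgebraicCurve Fermat.Agent.Lib.RR Fermat.Agent.GAL Fermat.Agent.GAL.RED Fermat.Agent.DR.Abs
  Fermat.Agent.S36.Val Fermat.Agent.S36.Norm Fermat.Agent.S36.Abs

variable {K : Type} [Field K] {A : ValuationSubring K} {F F1 : Type} [Field F] [Algebra K F]
  [Field F1] [Algebra K F1] {ι : Type} [Fintype ι] (V : ι → ValOver A F) (φ : F1 →ₐ[K] F)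
  [∀ a j, FiniteDimensional (Fb1 V φ a) (V (sOf V φ a j)).Res]

/-- The restriction of a branch. -/
def restrBr (i : ι) (P : Place (IsLocalRing.ResidueField ↥A) (V i).Res) :
    Place (IsLocalRing.ResidueField ↥A) (Fb1 V φ (pr V φ i)) :=
  Place.restrict (F' := (V (sOf V φ (pr V φ i) ⟨i, rfl⟩)).Res) (Fb1 V φ (pr V φ i)) P

variable {E E1 : Type}

/-- **The nodes downstairs.** -/
def N1 (N : NodeData (IsLocalRing.ResidueField ↥A) (fun i => (V i).Res) E) (sec : E1 → E) :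
    NodeData (IsLocalRing.ResidueField ↥A) (Fb1 V φ) E1 where
  i₁ e1 := pr V φ (N.i₁ (sec e1))
  i₂ e1 := pr V φ (N.i₂ (sec e1))
  p₁ e1 := restrBr V φ _ (N.p₁ (sec e1))
  p₂ e1 := restrBr V φ _ (N.p₂ (sec e1))

variable [IsAlgClosed (IsLocalRing.ResidueField ↥A)]
  [∀ i, IsFF (IsLocalRing.ResidueField ↥A) (V i).Res]
  [∀ a, IsFF (IsLocalRing.ResidueField ↥A) (Fb1 V φ a)]

/-- the order of a function downstairs at the restriction of a branch.
(`ord_algebraMap_nonneg_iff` for `L = (V (sOf V φ (pr V φ i) ⟨i, rfl⟩)).Res`, `algebraMap_red1 V φ (pr V φ i) ⟨i, rfl⟩ y`.) -/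
theorem restrBr_ord_nonneg_iff (i : ι) (P : Place (IsLocalRing.ResidueField ↥A) (V i).Res) (y : F1) :
    0 ≤ (restrBr V φ i P).ord ((V1 V φ (pr V φ i)).redData.red y) ↔
      0 ≤ P.ord ((V i).redData.red (φ y)) := by
  have h1 := ord_algebraMap_nonneg_iff (k := IsLocalRing.ResidueField ↥A)
    (L1 := Fb1 V φ (pr V φ i)) (L := (V (sOf V φ (pr V φ i) ⟨i, rfl⟩)).Res) P
    ((V1 V φ (pr V φ i)).redData.red y)
  rw [algebraMap_red1 V φ (pr V φ i) ⟨i, rfl⟩ y] at h1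
  exact h1.symm

/-- **Criterion for `BranchAbove`.**
PROOF. `j := ⟨i, hi⟩ : J1 V φ (pr V φ i₀)`, `w := P`; `BranchAbove.mk' j w hw hr` (`sOf V φ _ ⟨i, hi⟩ = i` by `rfl`).
`hw` : `restrict_eq_of_le w _`: every `f : Fb1 V φ (pr V φ i₀)` is `(V1 ..).redData.red y` with `y ∈ (V1 ..).O` (`RedData.res_surjective`, `red_of_mem`), i.e. `φ y ∈ (V i₀).O` (`mem_V1_iff .. ⟨i₀, rfl⟩`);
`restrBr_ord_nonneg_iff`, `algebraMap_red1 V φ _ j y`, `hle`.
`hr` : let `f` with `(w.restrict _).ord f = 1` (`IsDiscreteValuationRing.exists_irreducible`, `Place.ord_coe_irreducible`, as in the proof of `Norm.ord_algEquiv` in `S36/Norm/Tools/Ev.lean`); `f = red y`;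
`Place.ord_restrict` : `w.ord (algebraMap f) = e * 1`; `e > 0` (`ramificationIndex_pos`), `hram y`. (`φ y ∈ (V i).O` by `mem_V1_iff .. j`.) -/
theorem branchAbove_of_red {i i₀ : ι} (hi : pr V φ i = pr V φ i₀)
    (P : Place (IsLocalRing.ResidueField ↥A) (V i).Res)
    (P₀ : Place (IsLocalRing.ResidueField ↥A) (V i₀).Res) (r : ℕ)
    (hle : ∀ y : F1, φ y ∈ (V i₀).O → 0 ≤ P₀.ord ((V i₀).redData.red (φ y)) →
      0 ≤ P.ord ((V i).redData.red (φ y)))
    (hram : ∀ y : F1, φ y ∈ (V i).O → 0 < P.ord ((V i).redData.red (φ y)) →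
      (r : ℤ) ≤ P.ord ((V i).redData.red (φ y))) :
    BranchAbove (Fb := fun i => (V i).Res) (sOf V φ) (pr V φ i₀) (restrBr V φ i₀ P₀) ⟨i, P⟩ r := by
  have hsurj : ∀ f : Fb1 V φ (pr V φ i₀), ∃ y : F1, y ∈ (V1 V φ (pr V φ i₀)).O ∧
      (V1 V φ (pr V φ i₀)).redData.red y = f := by
    intro f
    obtain ⟨y, hy⟩ := (V1 V φ (pr V φ i₀)).redData.res_surjective f
    exact ⟨y.1, y.2, by rw [(V1 V φ (pr V φ i₀)).redData.red_of_mem y.2]; exact hy⟩
  have hw : Place.restrict (F' := (V (sOf V φ (pr V φ i₀) ⟨i, hi⟩)).Res) (Fb1 V φ (pr V φ i₀)) P =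
      restrBr V φ i₀ P₀ := by
    refine restrict_eq_of_le (k := IsLocalRing.ResidueField ↥A) (L1 := Fb1 V φ (pr V φ i₀))
      (L := (V (sOf V φ (pr V φ i₀) ⟨i, hi⟩)).Res) P _ fun f hf => ?_
    obtain ⟨y, hy, rfl⟩ := hsurj f
    rw [algebraMap_red1 V φ (pr V φ i₀) ⟨i, hi⟩ y]
    exact hle y ((mem_V1_iff V φ (pr V φ i₀) ⟨i₀, rfl⟩ y).1 hy)
      ((restrBr_ord_nonneg_iff V φ i₀ P₀ y).1 hf)
  have hr : r ≤ Place.ramificationIndex (F' := (V (sOf V φ (pr V φ i₀) ⟨i, hi⟩)).Res) P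
      (Fb1 V φ (pr V φ i₀)) := by
    obtain ⟨π, hπ⟩ := IsDiscreteValuationRing.exists_irreducible
      (Place.restrict (F' := (V (sOf V φ (pr V φ i₀) ⟨i, hi⟩)).Res) (Fb1 V φ (pr V φ i₀))
        P).toValuationSubring
    have h3 := Place.ord_coe_irreducible _ hπ
    obtain ⟨y, hy, hyπ⟩ := hsurj (π : Fb1 V φ (pr V φ i₀))
    have h4 := Place.ord_restrict (F := Fb1 V φ (pr V φ i₀))
      (F' := (V (sOf V φ (pr V φ i₀) ⟨i, hi⟩)).Res) P (π : Fb1 V φ (pr V φ i₀))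
    rw [h3, mul_one, ← hyπ, algebraMap_red1 V φ (pr V φ i₀) ⟨i, hi⟩ y] at h4
    have he : 0 < Place.ramificationIndex (F' := (V (sOf V φ (pr V φ i₀) ⟨i, hi⟩)).Res) P
      (Fb1 V φ (pr V φ i₀)) := Place.ramificationIndex_pos _
    have h5 := hram y ((mem_V1_iff V φ (pr V φ i₀) ⟨i, hi⟩ y).1 hy)
      (by
        have h6 : P.ord ((V i).redData.red (φ y)) = _ := h4
        rw [h6]
        exact_mod_cast he)
    have h6 : P.ord ((V i).redData.red (φ y)) = _ := h4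
    rw [h6] at h5
    exact_mod_cast h5
  exact BranchAbove.mk' (Fb := fun i => (V i).Res) (sOf V φ) (a := pr V φ i₀)
    (P1 := restrBr V φ i₀ P₀) (⟨i, hi⟩ : J1 V φ (pr V φ i₀)) P hw hr

/-- the condition `hram` in terms of the ramification index.
(`Place.ord_restrict`: `P.ord (algebraMap f) = e * (restriction).ord f`, and `0 < e * n → e ≤ e * n`; `algebraMap_red1 V φ _ ⟨i, rfl⟩ y`.) -/
theorem hram_of_le_ramificationIndex (i : ι) (P : Place (IsLocalRing.ResidueField ↥A) (V i).Res)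
    (r : ℕ)
    (h : r ≤ Place.ramificationIndex (F' := (V (sOf V φ (pr V φ i) ⟨i, rfl⟩)).Res) P
      (Fb1 V φ (pr V φ i))) (y : F1)
    (hy : 0 < P.ord ((V i).redData.red (φ y))) : (r : ℤ) ≤ P.ord ((V i).redData.red (φ y)) := by
  have h1 := Place.ord_restrict (F := Fb1 V φ (pr V φ i))
    (F' := (V (sOf V φ (pr V φ i) ⟨i, rfl⟩)).Res) P ((V1 V φ (pr V φ i)).redData.red y)
  rw [algebraMap_red1 V φ (pr V φ i) ⟨i, rfl⟩ y] at h1
  have h2 : P.ord ((V i).redData.red (φ y)) = _ := h1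
  rw [h2] at hy ⊢
  have he : (0 : ℤ) < (Place.ramificationIndex (F' := (V (sOf V φ (pr V φ i) ⟨i, rfl⟩)).Res) P
      (Fb1 V φ (pr V φ i)) : ℤ) := by
    exact_mod_cast Place.ramificationIndex_pos (F := Fb1 V φ (pr V φ i))
      (F' := (V (sOf V φ (pr V φ i) ⟨i, rfl⟩)).Res) P
  have hn := (pos_iff_pos_of_mul_pos hy).1 he
  have hr : (r : ℤ) ≤ (Place.ramificationIndex (F' := (V (sOf V φ (pr V φ i) ⟨i, rfl⟩)).Res) P
      (Fb1 V φ (pr V φ i)) : ℤ) := by exact_mod_cast h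
  nlinarith

variable [Fintype E] [DecidableEq E1]
  {N : NodeData (IsLocalRing.ResidueField ↥A) (fun i => (V i).Res) E} {πE : E → E1} {sec : E1 → E}
  {rr : E → ℕ}

/-- the hypotheses on the nodes. -/
structure NodeHyp (N : NodeData (IsLocalRing.ResidueField ↥A) (fun i => (V i).Res) E) (πE : E → E1)
    (sec : E1 → E) (rr : E → ℕ) : Prop where
  sec_spec : ∀ e1, πE (sec e1) = e1
  pr₁ : ∀ e, pr V φ (N.i₁ e) = pr V φ (N.i₁ (sec (πE e)))
  pr₂ : ∀ e, pr V φ (N.i₂ e) = pr V φ (N.i₂ (sec (πE e)))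
  le₁ : ∀ e (y : F1), φ y ∈ (V (N.i₁ (sec (πE e)))).O →
    0 ≤ (N.p₁ (sec (πE e))).ord ((V (N.i₁ (sec (πE e)))).redData.red (φ y)) →
      0 ≤ (N.p₁ e).ord ((V (N.i₁ e)).redData.red (φ y))
  le₂ : ∀ e (y : F1), φ y ∈ (V (N.i₂ (sec (πE e)))).O →
    0 ≤ (N.p₂ (sec (πE e))).ord ((V (N.i₂ (sec (πE e)))).redData.red (φ y)) →
      0 ≤ (N.p₂ e).ord ((V (N.i₂ e)).redData.red (φ y))
  ram₁ : ∀ e (y : F1), φ y ∈ (V (N.i₁ e)).O → 0 < (N.p₁ e).ord ((V (N.i₁ e)).redData.red (φ y)) →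
    (rr e : ℤ) ≤ (N.p₁ e).ord ((V (N.i₁ e)).redData.red (φ y))
  ram₂ : ∀ e (y : F1), φ y ∈ (V (N.i₂ e)).O → 0 < (N.p₂ e).ord ((V (N.i₂ e)).redData.red (φ y)) →
    (rr e : ℤ) ≤ (N.p₂ e).ord ((V (N.i₂ e)).redData.red (φ y))

theorem NodeHyp.above₁ (h : NodeHyp V φ N πE sec rr) (e : E) :
    BranchAbove (Fb := fun i => (V i).Res) (sOf V φ) ((N1 V φ N sec).i₁ (πE e))
      ((N1 V φ N sec).p₁ (πE e))
      ⟨N.i₁ e, N.p₁ e⟩ (rr e) :=
  branchAbove_of_red V φ (h.pr₁ e) (N.p₁ e) (N.p₁ (sec (πE e))) (rr e) (h.le₁ e) (h.ram₁ e)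

theorem NodeHyp.above₂ (h : NodeHyp V φ N πE sec rr) (e : E) :
    BranchAbove (Fb := fun i => (V i).Res) (sOf V φ) ((N1 V φ N sec).i₂ (πE e))
      ((N1 V φ N sec).p₂ (πE e))
      ⟨N.i₂ e, N.p₂ e⟩ (rr e) :=
  branchAbove_of_red V φ (h.pr₂ e) (N.p₂ e) (N.p₂ (sec (πE e))) (rr e) (h.le₂ e) (h.ram₂ e)

/-- **`NodeCover` for the model defined by restriction.** -/
theorem nodeCover_restrict (h : NodeHyp V φ N πE sec rr) (hinj : Function.Injective N.branch)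
    (hG : ∀ a j, GoodExt (IsLocalRing.ResidueField ↥A) (Fb1 V φ a) (V (sOf V φ a j)).Res)
    (hsum : ∀ a : Idx1 V φ,
      ∑ j : J1 V φ a, Module.finrank (Fb1 V φ a) (V (sOf V φ a j)).Res = finrankAlong K φ)
    (hrr : ∀ e1, finrankAlong K φ ≤ ∑ e with πE e = e1, rr e) :
    NodeCover (sOf V φ) (N1 V φ N sec) N πE rr :=
  nodeCover_of_branchAbove (sOf_injective V φ) hG hinj h.above₁ h.above₂
    (fun e1 => by rw [hsum]; exact hrr e1) (fun e1 => by rw [hsum]; exact hrr e1)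

/-- **The nodes downstairs are glued.** -/
theorem glued_restrict [IsFF K F] [IsFF K F1] [IsAlgClosed K] (h : NodeHyp V φ N πE sec rr)
    (hsep : (ofVal V).Sep) (hfin : FiniteAlong K φ)
    (hsum : ∀ a : Idx1 V φ,
      ∑ j : J1 V φ a, Module.finrank (Fb1 V φ a) (V (sOf V φ a j)).Res = finrankAlong K φ)
    {x1 : F1} (hG : NodesGlued (ofVal V) (φ x1) N) : NodesGlued (T1 V φ) x1 (N1 V φ N sec) := by
  let _ := algebraAlong φ
  have := isScalarTower_along φ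
  have : FiniteDimensional F1 F := hfin
  exact NodesGlued.descend (F1 := F1) (coverAlong_restrict V φ hsep hfin hsum) (exists_sOf_eq V φ)
    (fun e1 => ⟨sec e1, h.sec_spec e1⟩) h.above₁ h.above₂ hG

end Fermat.Agent.S36.E
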