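import Fermat.Agent.S36.E.OfVal
import Fermat.Agent.S36.Norm.Along
import Fermat.Agent.S36.Norm.Tools.OverLe
import Fermat.Agent.S36.Abs.Sep

/-!
# S36/E/Cover : the model downstairs, defined by restriction

`V : ι → ValOver A F` the valuation rings of the components upstairs, `φ : F1 →ₐ[K] F`.
* `comapAlong V φ : ValOver A F1` : the restriction of a valuation ring;
* `Idx1 V φ` : the set of the components downstairs := the quotient of `ι` by "same restriction"; `pr V φ : ι → Idx1 V φ`;
* `V1 V φ : Idx1 V φ → ValOver A F1`, `T1 V φ := ofVal (V1 V φ)`;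
* `J1 V φ a := {i // pr V φ i = a}`, `sOf V φ a : J1 V φ a → ι`;
* the algebra structures `(V1 V φ a).Res → (V (sOf V φ a j)).Res` (`instAlgRes`), `algebraMap_red1`;
* `T1_hasScales`, `T1_rankOne`, `T1_sep`.
-/

set_option autoImplicit false

noncomputable section

namespace Fermat.Agent.S36.E

open AlgebraicCurve Fermat.Agent.GAL Fermat.Agent.GAL.RED Fermat.Agent.DR.Abs Fermat.Agent.S36.Val
  Fermat.Agent.S36.Norm Fermat.Agent.S36.Abs

variable {K : Type} [Field K] {A : ValuationSubring K} {F F1 : Type} [Field F] [Algebra K F]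
  [Field F1] [Algebra K F1] {ι : Type}

/-- The restriction of a valuation ring along `φ`. -/
def comapAlong (V : ValOver A F) (φ : F1 →ₐ[K] F) : ValOver A F1 where
  O := V.O.comap (φ : F1 →+* F)
  comap_eq := by
    ext a
    show φ (algebraMap K F1 a) ∈ V.O ↔ a ∈ A
    rw [AlgHom.commutes]
    exact V.algebraMap_mem_iff

theorem mem_comapAlong (V : ValOver A F) (φ : F1 →ₐ[K] F) (y : F1) :
    y ∈ (comapAlong V φ).O ↔ φ y ∈ V.O := Iff.rfl

variable (V : ι → ValOver A F) (φ : F1 →ₐ[K] F)

/-- "same restriction". -/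
def restrSetoid : Setoid ι where
  r i i' := comapAlong (V i) φ = comapAlong (V i') φ
  iseqv := ⟨fun _ => rfl, fun h => h.symm, fun h h' => h.trans h'⟩

/-- The components downstairs. -/
def Idx1 : Type := Quotient (restrSetoid V φ)

/-- The map on the components. -/
def pr (i : ι) : Idx1 V φ := Quotient.mk (restrSetoid V φ) i

theorem pr_surjective : Function.Surjective (pr V φ) := Quotient.mk_surjective

theorem pr_eq_iff (i i' : ι) : pr V φ i = pr V φ i' ↔ comapAlong (V i) φ = comapAlong (V i') φ :=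
  Quotient.eq (r := restrSetoid V φ)

instance [Finite ι] : Finite (Idx1 V φ) := Finite.of_surjective _ (pr_surjective V φ)

instance [Finite ι] : Fintype (Idx1 V φ) := Fintype.ofFinite _

/-- The valuation rings downstairs. -/
def V1 : Idx1 V φ → ValOver A F1 :=
  Quotient.lift (fun i => comapAlong (V i) φ) (fun _ _ h => h)

@[simp] theorem V1_pr (i : ι) : V1 V φ (pr V φ i) = comapAlong (V i) φ := rfl

theorem V1_injective : Function.Injective (V1 V φ) := by
  intro a a' h
  obtain ⟨i, rfl⟩ := pr_surjective V φ a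
  obtain ⟨i', rfl⟩ := pr_surjective V φ a'
  exact (pr_eq_iff V φ i i').2 h

/-- The components above `a`. -/
abbrev J1 (a : Idx1 V φ) : Type := {i : ι // pr V φ i = a}

instance [Finite ι] (a : Idx1 V φ) : Fintype (J1 V φ a) := Fintype.ofFinite _

/-- The components above `a`. -/
abbrev sOf (a : Idx1 V φ) (j : J1 V φ a) : ι := j.1

theorem sOf_injective (a : Idx1 V φ) : Function.Injective (sOf V φ a) := Subtype.val_injective

theorem exists_sOf_eq (i : ι) : ∃ a j, sOf V φ a j = i := ⟨pr V φ i, ⟨i, rfl⟩, rfl⟩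

theorem mem_V1_iff (a : Idx1 V φ) (j : J1 V φ a) (y : F1) :
    y ∈ (V1 V φ a).O ↔ φ y ∈ (V (sOf V φ a j)).O := by
  obtain ⟨i, rfl⟩ := j
  rfl

theorem redHomAlong (a : Idx1 V φ) (j : J1 V φ a) :
    RedHom (V1 V φ a).redData (V (sOf V φ a j)).redData (φ : F1 →+* F) where
  comap := by
    ext y
    exact (mem_V1_iff V φ a j y).symm
  const := fun c hc => by
    show (V (sOf V φ a j)).redData.red (φ (algebraMap K F1 c)) = _
    rw [AlgHom.commutes, (V (sOf V φ a j)).redData.red_algebraMap hc]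
    rfl

/-- The function fields of the components downstairs. -/
abbrev Fb1 (a : Idx1 V φ) : Type := (V1 V φ a).Res

/-- **The residue field extensions.** -/
instance instAlgRes (a : Idx1 V φ) (j : J1 V φ a) :
    Algebra (Fb1 V φ a) (V (sOf V φ a j)).Res := (redHomAlong V φ a j).algebra

instance instTowerRes (a : Idx1 V φ) (j : J1 V φ a) :
    IsScalarTower (IsLocalRing.ResidueField ↥A) (Fb1 V φ a) (V (sOf V φ a j)).Res :=
  (redHomAlong V φ a j).isScalarTower

theorem algebraMap_red1 (a : Idx1 V φ) (j : J1 V φ a) (y : F1) :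
    algebraMap (Fb1 V φ a) (V (sOf V φ a j)).Res ((V1 V φ a).redData.red y) =
      (V (sOf V φ a j)).redData.red (φ y) :=
  (redHomAlong V φ a j).algebraMap_red y

/-- **The family of reductions downstairs.** -/
abbrev T1 : MultiRed K F1 (IsLocalRing.ResidueField ↥A) (Fb1 V φ) := ofVal (V1 V φ)

theorem T1_hasScales (hsc : HasScales (ofVal V)) : HasScales (T1 V φ) := by
  intro a w hw
  obtain ⟨i, rfl⟩ := pr_surjective V φ a
  obtain ⟨c, hc, h⟩ := hsc i (φ w) ((map_ne_zero φ).2 hw)
  refine ⟨c, hc, fun h0 => h ?_⟩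
  have h1 := algebraMap_red1 V φ (pr V φ i) ⟨i, rfl⟩ (c • w)
  rw [map_smul] at h1
  have h2 : (V1 V φ (pr V φ i)).redData.red (c • w) = 0 := h0
  rw [h2, map_zero] at h1
  exact h1.symm

theorem T1_rankOne (hr : RankOne (ofVal V)) : RankOne (T1 V φ) := hr

/-- two valuation rings with scales over the same `A` which are comparable are equal. -/
theorem valOver_eq_of_le {F' : Type} [Field F'] [Algebra K F'] {W W' : ValOver A F'}
    (hsc : ∀ w : F', w ≠ 0 → ∃ a : K, a ≠ 0 ∧ W.redData.red (a • w) ≠ 0)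
    (hle : ∀ t, t ∈ W.O → t ∈ W'.O) : W = W' := by
  apply ValOver.ext'
  ext w
  refine ⟨hle w, fun hw => ?_⟩
  by_cases hw0 : w = 0
  · rw [hw0]; exact W.O.zero_mem
  obtain ⟨a, ha, h⟩ := hsc w hw0
  obtain ⟨h1, h2, h3⟩ := W.redData.red_ne_zero_iff.1 h
  -- `a • w` is a unit of `W.O`, hence of `W'.O`
  have h4 : (a • w)⁻¹ ∈ W'.O := hle _ h3
  have h5 : algebraMap K F' a⁻¹ = w * (a • w)⁻¹ := by
    rw [Algebra.smul_def, mul_inv, map_inv₀]
    field_simp
  have h6 : a⁻¹ ∈ A := by
    rw [← W'.algebraMap_mem_iff, h5]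
    exact W'.O.mul_mem _ _ hw h4
  have h7 : w = algebraMap K F' a⁻¹ * (a • w) := by
    rw [Algebra.smul_def, ← mul_assoc, ← map_mul, inv_mul_cancel₀ ha, map_one, one_mul]
  rw [h7]
  exact W.O.mul_mem _ _ (W.algebraMap_mem h6) h2

theorem T1_sep [Finite ι] [Infinite (IsLocalRing.ResidueField ↥A)] (hsc : HasScales (ofVal V)) (hr : RankOne (ofVal V)) : (T1 V φ).Sep := by
  refine sep_of_incomparable (T1 V φ) (fun a a' haa => ?_) (T1_hasScales V φ hsc)
    (T1_rankOne V φ hr)
  by_contra hcon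
  push_neg at hcon
  exact haa (V1_injective V φ (valOver_eq_of_le (T1_hasScales V φ hsc a) hcon))

end Fermat.Agent.S36.E
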